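/-
MLT / L1 / Vert3 (helper3), part 1: **a vertical function of multiplicity `4`** (prime to `3`), the series.

`q ≠ 3` a prime.  The Laurent series
* `q ≡ 1 mod 3` : `u₈ = (η(z)/η(qz))⁸` (`eeU8LS`), `u₈³ = D_q`;
* `q ≡ 2 mod 3` : `t_q / t_2 = (η(2z)/η(qz))⁸` with `t_r = E₄² / (η(z) η(rz))⁸` (`eeTLS`),
  `(t_q / t_2)³ = D_q / D_2`,
where `D_r = Δ(z) / Δ(rz)` (`unitFinLS`).  They lie in the function field of `X₀(N)` over any field `L` of
characteristic `0` as soon as `q ∣ N` (and `2 ∣ N` in the second case): no new modularity proof is needed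
(`Lib/Eis/Eta/EtaQuotField.lean`).

* `mltl1V3LS L q`, `mltl1V3ULS L q` (`= 1` resp. `D_2`), `mltl1V3LS_cube : g³ · u = D_q`;
* `mltl1V3LS_mem : g ∈ TaF L N`; `lsMapHom_mltl1V3LS` (base change).
-/
import Mathlib
import Fermat.Agent.Lib.Eis.Eta.EtaQuotField
import Fermat.Agent.Lib.T1.GoodRed.Level
import Fermat.Agent.Lib.Delta.NodeX.VertGen

set_option autoImplicit false
set_option linter.unusedSectionVars false
set_option linter.unusedVariables false
set_option linter.style.haveILetI false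

open HahnSeries ModularCurve Fermat.Agent.Igusa Fermat.Agent.T1 Fermat.Agent.Eis Fermat.Agent.Delta

noncomputable section

namespace Fermat.Agent.MLT

section Series

variable (K : Type*) [Field K] (q : ℕ) [NeZero q]

/-- the vertical function of multiplicity `4`: `(η(z)/η(qz))⁸` if `q ≡ 1 mod 3`,
`(η(2z)/η(qz))⁸` otherwise -/
def mltl1V3LS : LaurentSeries K :=
  if q % 3 = 1 then eeU8LS K q ((q - 1) / 3)
  else eeTLS K q ((q + 1) / 3) * (eeTLS K 2 1)⁻¹

/-- the correcting unit: `1` if `q ≡ 1 mod 3`, `D_2 = Δ(z)/Δ(2z)` otherwise -/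
def mltl1V3ULS : LaurentSeries K :=
  if q % 3 = 1 then 1 else unitFinLS K 2

theorem mltl1_jqModC_ne_zero : jqModC K ≠ 0 := jqModC_ne_zero_of_nontrivial K

theorem mltl1_eeTLS_two_ne_zero : eeTLS K 2 1 ≠ 0 := by
  intro h
  have h1 := eeTLS_cube K 2 (k := 1) (by norm_num)
  rw [h, zero_pow (by norm_num)] at h1
  exact mul_ne_zero (pow_ne_zero 2 (mltl1_jqModC_ne_zero K)) (dlxv_unitFinLS_ne_zero K 2) h1.symm

/-- **`g³ · u = D_q`** -/
theorem mltl1V3LS_cube (hq3 : q % 3 ≠ 0) :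
    mltl1V3LS K q ^ 3 * mltl1V3ULS K q = unitFinLS K q := by
  unfold mltl1V3LS mltl1V3ULS
  by_cases h1 : q % 3 = 1
  · rw [if_pos h1, if_pos h1, mul_one]
    exact eeU8LS_cube K q (by omega)
  · rw [if_neg h1, if_neg h1]
    have hq : q + 1 = 3 * ((q + 1) / 3) := by omega
    have e1 := eeTLS_cube K q hq
    have e2 := eeTLS_cube K 2 (k := 1) (by norm_num)
    have hj := mltl1_jqModC_ne_zero K
    have hD2 := dlxv_unitFinLS_ne_zero K 2
    rw [mul_pow, inv_pow, e1, e2]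
    field_simp

theorem mltl1V3ULS_ne_zero : mltl1V3ULS K q ≠ 0 := by
  unfold mltl1V3ULS
  split_ifs
  · exact one_ne_zero
  · exact dlxv_unitFinLS_ne_zero K 2

theorem mltl1V3LS_ne_zero (hq3 : q % 3 ≠ 0) : mltl1V3LS K q ≠ 0 := by
  intro h
  have h1 := mltl1V3LS_cube K q hq3
  rw [h, zero_pow (by norm_num), zero_mul] at h1
  exact dlxv_unitFinLS_ne_zero K q h1.symm

variable {K}

theorem lsMapHom_mltl1V3LS {S : Type*} [Field S] (φ : K →+* S) :
    lsMapHom φ (mltl1V3LS K q) = mltl1V3LS S q := by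
  unfold mltl1V3LS
  split_ifs
  · exact lsMapHom_eeU8LS q φ _
  · rw [map_mul, map_inv₀, lsMapHom_eeTLS, lsMapHom_eeTLS]

theorem lsMapHom_mltl1V3ULS {S : Type*} [Field S] (φ : K →+* S) :
    lsMapHom φ (mltl1V3ULS K q) = mltl1V3ULS S q := by
  unfold mltl1V3ULS
  split_ifs
  · exact map_one _
  · exact lsMapHom_unitFinLS φ 2

end Series

section Field

variable (L : Type*) [Field L] [Algebra ℚ L] (N : ℕ) [NeZero N] (q : ℕ) [hq : Fact q.Prime]

/-- the vertical function over `ℚ` lies in `ℚ(X₀(N))` -/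
theorem mltl1V3LS_mem_full (hqN : q ∣ N) (h2N : 2 ∣ N) (hq3 : q % 3 ≠ 0) :
    haveI : NeZero q := ⟨hq.out.ne_zero⟩
    mltl1V3LS ℚ q ∈ modularFunctionFieldFull N := by
  haveI : NeZero q := ⟨hq.out.ne_zero⟩
  haveI : Fact (2 : ℕ).Prime := ⟨Nat.prime_two⟩
  unfold mltl1V3LS
  by_cases h1 : q % 3 = 1
  · rw [if_pos h1]
    exact full_degeneracy_le hqN (eeU8LS_mem_full q (by omega))
  · rw [if_neg h1]
    refine mul_mem (full_degeneracy_le hqN (eeTLS_mem_full q (by omega))) (inv_mem ?_)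
    exact full_degeneracy_le h2N (eeTLS_mem_full 2 (k := 1) (by norm_num))

/-- the vertical function lies in `L(X₀(N))` -/
theorem mltl1V3LS_mem (hqN : q ∣ N) (h2N : 2 ∣ N) (hq3 : q % 3 ≠ 0) :
    haveI : NeZero q := ⟨hq.out.ne_zero⟩
    mltl1V3LS L q ∈ TaF L N := by
  haveI : NeZero q := ⟨hq.out.ne_zero⟩
  have h := coeffEmb_mem_laurentBaseChange L (mltl1V3LS_mem_full N q hqN h2N hq3)
  rwa [ta_coeffEmb_eq_lsMapHom, lsMapHom_mltl1V3LS] at h

end Field

end Fermat.Agent.MLT
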