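/-
MLT / L1 / Vert3 (helper3), part 2: **the vertical function of multiplicity `4` in `F_{N' q, L}`**

`L` a field of characteristic `0`, `q ≠ 3` prime, `2 ∣ N'`, `W : T2iAL L N' q` an Atkin–Lehner datum:
* `mltl1V3 : ↥(TaF L (N' * q))` with `q`-expansion `mltl1V3LS L q`; `mltl1V3U` (`= 1` or `D_2`);
  `mltl1V3_cube : g³ · u = D_q`;
* `u` is a unit at `v_∞`, at `v_0`, and at every place where `j` is regular;
* hence (cube roots in a valuation ring): `mltl1V3_val_inf : v_∞(g) = 1`, `mltl1V3_val_zero : v_0(g) < 1`,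
  `mltl1V3_hor`, `mltl1V3_ord_zero : 3 · ord_{v_0} g = ord_{v_0} D_q`.
-/
import Mathlib
import Fermat.Agent.Lib.MLT.L1.Vert3.Series
import Fermat.Agent.Lib.Delta.NodeX.VertOrd

set_option autoImplicit false
set_option linter.unusedSectionVars false
set_option linter.unusedVariables false
set_option linter.style.haveILetI false
set_option synthInstance.maxHeartbeats 400000

open Polynomial HahnSeries ModularCurve Fermat.Agent.Igusa Fermat.Agent.T1 Fermat.Agent.T2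
  Fermat.Agent.T4 Fermat.Agent.Mazur Fermat.Agent.Delta Fermat.Agent.Eis

noncomputable section

namespace Fermat.Agent.MLT

/-! ### cube roots in a valuation ring -/

section Cube

variable {F : Type*} [Field F] (V : ValuationSubring F)

theorem mltl1_val_eq_one_of_pow {x : F} {n : ℕ} (hn : n ≠ 0) (h : V.valuation (x ^ n) = 1) :
    V.valuation x = 1 := by
  rw [map_pow] at h
  rcases lt_trichotomy (V.valuation x) 1 with h1 | h1 | h1
  · exact absurd h (pow_lt_one₀ zero_le h1 hn).ne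
  · exact h1
  · exact absurd h (one_lt_pow₀ h1 hn).ne'

theorem mltl1_val_lt_one_of_pow {x : F} {n : ℕ} (hn : n ≠ 0) (h : V.valuation (x ^ n) < 1) :
    V.valuation x < 1 := by
  rw [map_pow] at h
  by_contra h1
  rw [not_lt] at h1
  exact absurd h (not_lt.mpr (one_le_pow₀ h1))

end Cube

/-! ### `D_r` is a unit wherever `j` is regular, `r` any prime dividing the level -/

section UnitR

variable {L : Type*} [Field L] [Algebra ℚ L] (N : ℕ) [NeZero N] {r : ℕ} (hr : r.Prime) [NeZero r]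
  (hrN : r ∣ N)

theorem mltl1_modPsiK_coeff_zero :
    (modPsiK r hr L).coeff 0 = Polynomial.C ((r : L) ^ 12) := by
  rw [mzg_modPsiK_coeff, mzg_modPsi_coeff_zero, Polynomial.map_C]
  simp

/-- `Ψ_r(U_r, j) = 0` -/
theorem mltl1_psi_U :
    ((modPsiK r hr L).map ((aeval (taJ N) :
      L[X] →ₐ[L] ↥(TaF L N)) : L[X] →+* ↥(TaF L N))).eval (taUnit N hrN) = 0 :=
  dlxv_eval_taJ N _ _ (modPsiK_eval_left r hr L)

include hr in
/-- `D_r` is a unit wherever `j` is regular -/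
theorem mltl1_D_unit_of_taJ_mem {V : ValuationSubring ↥(TaF L N)}
    (hL : ∀ c : L, algebraMap L ↥(TaF L N) c ∈ V) (h : taJ N ∈ V) :
    V.valuation (dlxvD N hrN) = 1 := by
  have hc := dlxv_natCast_pow_ne_zero L r
  obtain ⟨h1, h2⟩ := dlxv_root V hL _ (modPsiK_monic r hr L) h (mltl1_psi_U (L := L) N hr hrN)
  have h3 := h2 _ hc (mltl1_modPsiK_coeff_zero hr)
  have hD0 := dlxvD_ne_zero (L := L) N hrN
  have hU0 := dlxv_taUnit_ne_zero (L := L) N hrN
  have hmul := dlxvD_mul_taUnit (L := L) N hrN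
  have hc' : algebraMap L ↥(TaF L N) ((r : L) ^ 12) ≠ 0 := (_root_.map_ne_zero _).mpr hc
  rw [t4vp_valuation_eq_one_iff V hD0]
  constructor
  · have : dlxvD (L := L) N hrN =
        algebraMap L ↥(TaF L N) ((r : L) ^ 12) * (taUnit N hrN)⁻¹ := by
      rw [← hmul, mul_assoc, mul_inv_cancel₀ hU0, mul_one]
    rw [this]
    exact V.mul_mem _ _ (hL _) h3
  · have : (dlxvD (L := L) N hrN)⁻¹ =
        algebraMap L ↥(TaF L N) ((r : L) ^ 12)⁻¹ * taUnit N hrN := by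
      rw [map_inv₀, ← hmul, mul_inv, mul_assoc, inv_mul_cancel₀ hU0, mul_one]
    rw [this]
    exact V.mul_mem _ _ (hL _) h1

end UnitR

/-! ### the element -/

section Elt

variable {L : Type*} [Field L] [Algebra ℚ L] {N' q : ℕ} [NeZero N'] [hq : Fact q.Prime]

theorem mltl1_neZero_q : NeZero q := ⟨hq.out.ne_zero⟩

attribute [local instance] mltl1_neZero_q

theorem mltl1_neZero_mul : NeZero (N' * q) := ⟨Nat.mul_ne_zero (NeZero.ne N') hq.out.ne_zero⟩

attribute [local instance] mltl1_neZero_mul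

variable (L N' q)

/-- **the vertical function of multiplicity `4`** in `F_{N' q, L}` -/
def mltl1V3 (h2 : 2 ∣ N') (hq3 : q % 3 ≠ 0) : ↥(TaF L (N' * q)) :=
  ⟨mltl1V3LS L q, mltl1V3LS_mem L (N' * q) q (dvd_mul_left q N') (h2.mul_right q) hq3⟩

theorem mltl1V3ULS_mem (h2 : 2 ∣ N') : mltl1V3ULS L q ∈ TaF L (N' * q) := by
  unfold mltl1V3ULS
  split_ifs
  · exact one_mem _
  · exact dlxv_unitFinLS_mem (N' * q) (h2.mul_right q)

/-- the correcting unit -/
def mltl1V3U (h2 : 2 ∣ N') : ↥(TaF L (N' * q)) := ⟨mltl1V3ULS L q, mltl1V3ULS_mem L N' q h2⟩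

theorem mltl1V3U_eq_one (h2 : 2 ∣ N') (h1 : q % 3 = 1) : mltl1V3U L N' q h2 = 1 := by
  apply Subtype.ext
  show mltl1V3ULS L q = 1
  unfold mltl1V3ULS
  rw [if_pos h1]

theorem mltl1V3U_eq_D (h2 : 2 ∣ N') (h1 : q % 3 ≠ 1) :
    mltl1V3U L N' q h2 = dlxvD (N' * q) (h2.mul_right q) := by
  apply Subtype.ext
  show mltl1V3ULS L q = unitFinLS L 2
  unfold mltl1V3ULS
  rw [if_neg h1]

/-- **`g³ · u = D_q`** -/
theorem mltl1V3_cube (h2 : 2 ∣ N') (hq3 : q % 3 ≠ 0) :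
    mltl1V3 L N' q h2 hq3 ^ 3 * mltl1V3U L N' q h2 = dlxvD (N' * q) (dvd_mul_left q N') := by
  apply Subtype.ext
  show mltl1V3LS L q ^ 3 * mltl1V3ULS L q = unitFinLS L q
  exact mltl1V3LS_cube L q hq3

theorem mltl1V3_ne_zero (h2 : 2 ∣ N') (hq3 : q % 3 ≠ 0) : mltl1V3 L N' q h2 hq3 ≠ 0 := by
  intro h
  have h1 := congrArg (fun z : ↥(TaF L (N' * q)) => (z : LaurentSeries L)) h
  exact mltl1V3LS_ne_zero L q hq3 h1

theorem mltl1V3U_ne_zero (h2 : 2 ∣ N') : mltl1V3U L N' q h2 ≠ 0 := by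
  intro h
  have h1 := congrArg (fun z : ↥(TaF L (N' * q)) => (z : LaurentSeries L)) h
  exact mltl1V3ULS_ne_zero L q h1

end Elt

/-! ### the valuations -/

section Val

variable {L : Type*} [Field L] [Algebra ℚ L] {N' q : ℕ} [NeZero N'] [hq : Fact q.Prime]
  (W : T2iAL L N' q)
  (O : ValuationSubring L) {k : Type*} [Field k]
  (π : ↥O →+* k) [IsDiscreteValuationRing ↥O] (hπ : Function.Surjective π)

attribute [local instance] mltl1_neZero_q mltl1_neZero_mul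

/-- `u` is a unit at `v_∞` -/
theorem mltl1V3U_val_inf (h2 : 2 ∣ N') :
    (taOv O π hπ (N' * q)).valuation (mltl1V3U L N' q h2) = 1 := by
  by_cases h1 : q % 3 = 1
  · rw [mltl1V3U_eq_one L N' q h2 h1, map_one]
  · rw [mltl1V3U_eq_D L N' q h2 h1]
    exact dlxvD_val_inf O π hπ (N' * q) (h2.mul_right q)

/-- `D_2` at the level `N' q` comes from the level `N'` -/
theorem mltl1_D2_eq_alpha (h2 : 2 ∣ N') :
    dlxvD (L := L) (N' * q) (h2.mul_right q) = heckeAlphaBar L N' q (dlxvD N' h2) := by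
  apply Subtype.ext
  rw [coe_heckeAlphaBar]
  rfl

/-- `u` is a unit at `v_0` -/
theorem mltl1V3U_val_zero (h2 : 2 ∣ N') :
    (dliO0 O π hπ W).valuation (mltl1V3U L N' q h2) = 1 := by
  by_cases h1 : q % 3 = 1
  · rw [mltl1V3U_eq_one L N' q h2 h1, map_one]
  · rw [mltl1V3U_eq_D L N' q h2 h1]
    have hD0 := dlxvD_ne_zero (L := L) (N' * q) (h2.mul_right q)
    have hd0 := dlxvD_ne_zero (L := L) N' h2
    rw [dlxv_comap_val_eq_one (taOv O π hπ (N' * q))
      (W.w : ↥(TaF L (N' * q)) →+* ↥(TaF L (N' * q))) hD0]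
    show (taOv O π hπ (N' * q)).valuation (W.w (dlxvD (N' * q) (h2.mul_right q))) = 1
    rw [mltl1_D2_eq_alpha h2, W.w_alpha]
    have hb0 : heckeBetaBar L N' q (dlxvD N' h2) ≠ 0 :=
      (_root_.map_ne_zero (heckeBetaBar L N' q)).mpr hd0
    rw [t4vp_valuation_eq_one_iff _ hb0]
    constructor
    · rw [mem_taOv_iff, coe_heckeBetaBar]
      exact t2i_taGauss_qExpand O π q ((mem_taOv_iff O π hπ N' _).mp (dlxvD_mem_taOv O π hπ N' h2))
    · rw [← map_inv₀, mem_taOv_iff, coe_heckeBetaBar]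
      exact t2i_taGauss_qExpand O π q
        ((mem_taOv_iff O π hπ N' _).mp (dlxvD_inv_mem_taOv O π hπ N' h2))

/-- `u` is a unit wherever `j` is regular -/
theorem mltl1V3U_unit_of_taJ_mem (h2 : 2 ∣ N') {V : ValuationSubring ↥(TaF L (N' * q))}
    (hL : ∀ c : L, algebraMap L ↥(TaF L (N' * q)) c ∈ V) (h : taJ (N' * q) ∈ V) :
    V.valuation (mltl1V3U L N' q h2) = 1 := by
  by_cases h1 : q % 3 = 1
  · rw [mltl1V3U_eq_one L N' q h2 h1, map_one]
  · rw [mltl1V3U_eq_D L N' q h2 h1]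
    exact mltl1_D_unit_of_taJ_mem (N' * q) Nat.prime_two (h2.mul_right q) hL h

/-- the valuation of `g³` -/
theorem mltl1V3_val_cube (h2 : 2 ∣ N') (hq3 : q % 3 ≠ 0) (V : ValuationSubring ↥(TaF L (N' * q)))
    (hU : V.valuation (mltl1V3U L N' q h2) = 1) :
    V.valuation (mltl1V3 L N' q h2 hq3 ^ 3) =
      V.valuation (dlxvD (N' * q) (dvd_mul_left q N')) := by
  rw [← mltl1V3_cube L N' q h2 hq3, map_mul, hU, mul_one]

/-- **`v_∞(g) = 1`** -/
theorem mltl1V3_val_inf (h2 : 2 ∣ N') (hq3 : q % 3 ≠ 0) :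
    (taOv O π hπ (N' * q)).valuation (mltl1V3 L N' q h2 hq3) = 1 := by
  apply mltl1_val_eq_one_of_pow _ (n := 3) (by norm_num)
  rw [mltl1V3_val_cube h2 hq3 _ (mltl1V3U_val_inf O π hπ h2)]
  exact dlxvD_val_inf O π hπ (N' * q) (dvd_mul_left q N')

/-- **`v_0(g) < 1`** (`q = 0` in the residue field) -/
theorem mltl1V3_val_zero (h2 : 2 ∣ N') (hq3 : q % 3 ≠ 0) (hqk : (q : k) = 0) :
    (dliO0 O π hπ W).valuation (mltl1V3 L N' q h2 hq3) < 1 := by
  apply mltl1_val_lt_one_of_pow _ (n := 3) (by norm_num)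
  rw [mltl1V3_val_cube h2 hq3 _ (mltl1V3U_val_zero W O π hπ h2)]
  exact dlxvD_val_zero W O π hπ hqk

/-- **`g` is a unit at every place of `F / L` at which the symmetric chart is regular** -/
theorem mltl1V3_hor (h2 : 2 ∣ N') (hq3 : q % 3 ≠ 0) {Q : ℕ} (hQ : 2 ≤ Q)
    (V : ValuationSubring ↥(TaF L (N' * q))) (hV : V ∈ t4vpHor L (dlxvX W Q)) :
    V.valuation (mltl1V3 L N' q h2 hq3) = 1 := by
  have hL : ∀ c : L, algebraMap L ↥(TaF L (N' * q)) c ∈ V := t4vp_algebraMap_mem_hor hV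
  have hj : taJ (N' * q) ∈ V := by
    obtain ⟨v, rfl, hx⟩ := hV
    exact dlxv_taJ_mem_of_chart W hQ hL hx
  apply mltl1_val_eq_one_of_pow _ (n := 3) (by norm_num)
  rw [mltl1V3_val_cube h2 hq3 _ (mltl1V3U_unit_of_taJ_mem h2 hL hj)]
  exact dlxv_hor W hQ V hV

/-- **`3 · ord_{v_0} g = ord_{v_0} D_q`** -/
theorem mltl1V3_ord_zero (h2 : 2 ∣ N') (hq3 : q % 3 ≠ 0)
    [IsDiscreteValuationRing ↥(dliO0 O π hπ W)] :
    3 * dlOrd (dliO0 O π hπ W) (mltl1V3 L N' q h2 hq3) =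
      dlOrd (dliO0 O π hπ W) (dlxvD (N' * q) (dvd_mul_left q N')) := by
  have hg0 := mltl1V3_ne_zero L N' q h2 hq3
  have hU0 := mltl1V3U_ne_zero L N' q h2
  rw [← mltl1V3_cube L N' q h2 hq3, dlOrd_mul _ (pow_ne_zero 3 hg0) hU0, dlOrd_pow,
    (dl_valuation_eq_one_iff _ hU0).mp (mltl1V3U_val_zero W O π hπ h2), add_zero]
  norm_num

end Val

end Fermat.Agent.MLT
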