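/-
MLT / L1 / Vert3 (helper3), part 3: **the vertical function of multiplicity `4` at the level `H`**

`𝔓 | q`, `q ≠ 3`, `H ≤ I_𝔓` of finite index, `2 ∣ N'`, `q ∤ N'`:
* `mltl1VertD3 𝔓 H N' h2 hq3 : ↥(tbLevF 𝔓 (N' * q) H)`, `mltl1VertU3` (the correcting unit);
* `mltl1VertD3_hor`, `_val_inf`, `_val_zero`, `_phi`, `_ord_zero_of_unif : ord_{v_0} = 4 e`;
* `mltl1Vert3 : DlqfVert (dlxChart1 …)` (the analogue of `dlqVert` with `dlxVertD` replaced).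
-/
import Mathlib
import Fermat.Agent.Lib.MLT.L1.Vert3.Unit
import Fermat.Agent.Lib.Delta.Core.Main

set_option autoImplicit false
set_option linter.unusedSectionVars false
set_option linter.unusedVariables false
set_option linter.style.haveILetI false
set_option synthInstance.maxHeartbeats 400000
set_option maxHeartbeats 1000000

open HahnSeries ModularCurve Fermat.Agent.Igusa Fermat.Agent.T1 Fermat.Agent.T2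
  Fermat.Agent.T4 Fermat.Agent.TW Fermat.Agent.Delta Fermat.Agent.S33 Fermat.Agent.S33Q

noncomputable section

namespace Fermat.Agent.MLT

local notation "Qb" => AlgebraicClosure ℚ

attribute [local instance] t2i_dvr t2i_isAlgClosed t2i_charP t2i_fact
attribute [local instance 10000] dliAlgF dliAlgE

section LevelH

variable (𝔓 : FFPlace) (H : Subgroup 𝔓.I) [H.FiniteIndex] (N' : ℕ) [NeZero N'] (h : ¬ 𝔓.p ∣ N')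
  (h2 : 2 ∣ N') (hq3 : 𝔓.p % 3 ≠ 0)

/-- **the vertical function of multiplicity `4`** of `X₀(N' q)` over `L_H` -/
def mltl1VertD3 : ↥(tbLevF 𝔓 (N' * 𝔓.p) H) :=
  mltl1V3 (↥(tbFix 𝔓 H)) N' 𝔓.p h2 hq3

/-- the correcting unit (`1` or `D_2`) -/
def mltl1VertU3 : ↥(tbLevF 𝔓 (N' * 𝔓.p) H) :=
  mltl1V3U (↥(tbFix 𝔓 H)) N' 𝔓.p h2

theorem mltl1VertD3_cube :
    mltl1VertD3 𝔓 H N' h2 hq3 ^ 3 * mltl1VertU3 𝔓 H N' h2 = dlxVertD 𝔓 H N' :=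
  mltl1V3_cube (↥(tbFix 𝔓 H)) N' 𝔓.p h2 hq3

theorem mltl1VertD3_ne_zero : mltl1VertD3 𝔓 H N' h2 hq3 ≠ 0 :=
  mltl1V3_ne_zero (↥(tbFix 𝔓 H)) N' 𝔓.p h2 hq3

theorem mltl1VertU3_ne_zero : mltl1VertU3 𝔓 H N' h2 ≠ 0 :=
  mltl1V3U_ne_zero (↥(tbFix 𝔓 H)) N' 𝔓.p h2

theorem coe_mltl1VertD3 :
    ((mltl1VertD3 𝔓 H N' h2 hq3 : ↥(tbLevF 𝔓 (N' * 𝔓.p) H)) : LaurentSeries ↥(tbFix 𝔓 H)) =
      mltl1V3LS ↥(tbFix 𝔓 H) 𝔓.p := rfl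

theorem coe_mltl1VertU3 :
    ((mltl1VertU3 𝔓 H N' h2 : ↥(tbLevF 𝔓 (N' * 𝔓.p) H)) : LaurentSeries ↥(tbFix 𝔓 H)) =
      mltl1V3ULS ↥(tbFix 𝔓 H) 𝔓.p := rfl

/-- `g` is a unit at every horizontal place of the chart -/
theorem mltl1VertD3_hor {Q : ℕ} (hQ : 2 ≤ Q) (V : ValuationSubring ↥(tbLevF 𝔓 (N' * 𝔓.p) H))
    (hV : V ∈ t4vpHor ↥(tbFix 𝔓 H) (t2gaX 𝔓 H N' h Q)) :
    V.valuation (mltl1VertD3 𝔓 H N' h2 hq3) = 1 :=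
  mltl1V3_hor (t2iALFix 𝔓 H N' h) h2 hq3 hQ V hV

/-- `v_∞(g) = 1` -/
theorem mltl1VertD3_val_inf :
    (taOv (tbFixO 𝔓 H) (tbFixRes 𝔓 H) (tbFixRes_surjective 𝔓 H) (N' * 𝔓.p)).valuation
      (mltl1VertD3 𝔓 H N' h2 hq3) = 1 :=
  mltl1V3_val_inf _ _ _ h2 hq3

/-- `v_0(g) < 1` -/
theorem mltl1VertD3_val_zero :
    (dliO0 (tbFixO 𝔓 H) (tbFixRes 𝔓 H) (tbFixRes_surjective 𝔓 H)
      (t2iALFix 𝔓 H N' h)).valuation (mltl1VertD3 𝔓 H N' h2 hq3) < 1 :=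
  mltl1V3_val_zero (t2iALFix 𝔓 H N' h) _ _ _ h2 hq3
    (CharP.cast_eq_zero (IsLocalRing.ResidueField ↥𝔓.P) 𝔓.p)

/-- the `q`-expansion over `ℚ̄` -/
theorem mltl1VertD3_phi :
    ((tbPhiF 𝔓 (N' * 𝔓.p) H (mltl1VertD3 𝔓 H N' h2 hq3) :
      ↥(modularFunctionFieldBar (N' * 𝔓.p))) : LaurentSeries Qb) = mltl1V3LS Qb 𝔓.p := by
  rw [coe_tbPhiF, coe_mltl1VertD3]
  exact lsMapHom_mltl1V3LS 𝔓.p (algebraMap ↥(tbFix 𝔓 H) Qb)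

theorem mltl1VertU3_phi :
    ((tbPhiF 𝔓 (N' * 𝔓.p) H (mltl1VertU3 𝔓 H N' h2) :
      ↥(modularFunctionFieldBar (N' * 𝔓.p))) : LaurentSeries Qb) = mltl1V3ULS Qb 𝔓.p := by
  rw [coe_tbPhiF, coe_mltl1VertU3]
  exact lsMapHom_mltl1V3ULS 𝔓.p (algebraMap ↥(tbFix 𝔓 H) Qb)

/-- `ord_{v_0} g = 4 e` if `q = η ϖ ^ e`, `η` a unit and `ϖ` a uniformiser of `O_H` -/
theorem mltl1VertD3_ord_zero_of_unif
    [IsDiscreteValuationRing ↥(dliO0 (tbFixO 𝔓 H) (tbFixRes 𝔓 H) (tbFixRes_surjective 𝔓 H)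
      (t2iALFix 𝔓 H N' h))]
    {ϖ : ↥(tbFixO 𝔓 H)} (hϖ : Irreducible ϖ) {η : ↥(tbFixO 𝔓 H)} (hη : IsUnit η) {e : ℕ}
    (hpe : (𝔓.p : ↥(tbFix 𝔓 H)) = (η : ↥(tbFix 𝔓 H)) * (ϖ : ↥(tbFix 𝔓 H)) ^ e) :
    dlOrd (dliO0 (tbFixO 𝔓 H) (tbFixRes 𝔓 H) (tbFixRes_surjective 𝔓 H) (t2iALFix 𝔓 H N' h))
      (mltl1VertD3 𝔓 H N' h2 hq3) = 4 * (e : ℤ) := by
  have h1 := mltl1V3_ord_zero (t2iALFix 𝔓 H N' h) (tbFixO 𝔓 H) (tbFixRes 𝔓 H)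
    (tbFixRes_surjective 𝔓 H) h2 hq3
  have h3 := dlxVertD_ord_zero_of_unif 𝔓 H N' h hϖ hη hpe
  have h4 : dlOrd (dliO0 (tbFixO 𝔓 H) (tbFixRes 𝔓 H) (tbFixRes_surjective 𝔓 H) (t2iALFix 𝔓 H N' h))
      (dlxvD (L := ↥(tbFix 𝔓 H)) (N' * 𝔓.p) (dvd_mul_left 𝔓.p N')) = 12 * (e : ℤ) := h3
  rw [h4] at h1
  have h5 : dlOrd (dliO0 (tbFixO 𝔓 H) (tbFixRes 𝔓 H) (tbFixRes_surjective 𝔓 H) (t2iALFix 𝔓 H N' h))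
      (mltl1V3 (↥(tbFix 𝔓 H)) N' 𝔓.p h2 hq3) = 4 * (e : ℤ) := by omega
  exact h5

end LevelH

section Vert

variable (𝔓 : FFPlace) (H : Subgroup 𝔓.I) [H.FiniteIndex] {ϖ : ↥(tbFixO 𝔓 H)}
  (hϖ : Irreducible ϖ) (N' : ℕ) [NeZero N'] (h : ¬ 𝔓.p ∣ N') (h49 : 4 ∣ N' ∨ 9 ∣ N') {n : ℕ}
  (su : T2Setup (t2iBase2Fix 𝔓 H N' h) (Fin n))
  (hx : su.x = t2gaX 𝔓 H N' h (𝔓.p ^ 2)) (hxb : su.xb = (s33qXi 𝔓 N', s33qXi 𝔓 N'))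
  (h2 : 2 ∣ N') (hq3 : 𝔓.p % 3 ≠ 0)

include hx in
/-- `g` is a unit at all horizontal valuation rings of chart 1 -/
theorem mltl1_vert3_hor1 (V : ValuationSubring ↥(tbLevF 𝔓 (N' * 𝔓.p) H))
    (hV : V ∈ t4vpHor ↥(tbFix 𝔓 H) (dlxChart1 𝔓 H hϖ N' h h49 su hx hxb).x) :
    V.valuation (mltl1VertD3 𝔓 H N' h2 hq3) = 1 := by
  have hQ : 2 ≤ 𝔓.p ^ 2 := by
    have := 𝔓.hp.two_le
    nlinarith
  rw [dlxChart1_x, hx] at hV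
  exact mltl1VertD3_hor 𝔓 H N' h h2 hq3 hQ V hV

/-- (FIN-X), (HENS) and the vertical function of multiplicity `4` for chart 1 at the level `H` -/
def mltl1Vert3 : DlqfVert (dlxChart1 𝔓 H hϖ N' h h49 su hx hxb) where
  hfin := dlxChart1_finAt 𝔓 H hϖ N' h h49 su hx hxb
  hens := dlx_hensH 𝔓 H hϖ N'
  D := mltl1VertD3 𝔓 H N' h2 hq3
  hD0 := mltl1VertD3_ne_zero 𝔓 H N' h2 hq3
  hDhor := mltl1_vert3_hor1 𝔓 H hϖ N' h h49 su hx hxb h2 hq3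
  hD1 := mltl1VertD3_val_inf 𝔓 H N' h2 hq3
  hD2 := mltl1VertD3_val_zero 𝔓 H N' h h2 hq3

@[simp] theorem mltl1Vert3_D :
    (mltl1Vert3 𝔓 H hϖ N' h h49 su hx hxb h2 hq3).D = mltl1VertD3 𝔓 H N' h2 hq3 := rfl

end Vert

end Fermat.Agent.MLT
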