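/-
MLT / L1 / Vert3 (helper3), part 4: **(B1)+(B2) for every odd `p`** (in particular `p = 3`) at the places
`𝔓 | q`, `q ≠ 3`, with the vertical function of multiplicity `4`.

Port of `Lib/Ihara/B/Red/{Eis,Main}.lean` (helper4) with the vertical unit `D = Δ(z)/Δ(qz)`
(`v_0 - v_∞ = 12`) replaced by `g` (`g³ u = D`, `v_0 - v_∞ = 4`):
* `mltl1_node`, `mltl1_eis4` : the Eisenstein shape modulo `m` with `δ = 4 e`;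
* `mltl1_redDiv4 : IhbRedDiv 𝔓 K hK p _` for `4 ∣ K`, `p` odd, `p ≠ q`, `q ≠ 3`;
* `mltl1_redDivFam_three : MltL1RedDivFam 3 _`.
-/
import Mathlib
import Fermat.Agent.Lib.MLT.L1.Vert3.Level
import Fermat.Agent.Lib.MLT.L1.MazurEven
import Fermat.Agent.Lib.Ihara.B.Red.Main

set_option autoImplicit false
set_option linter.unusedSectionVars false
set_option linter.unusedVariables false
set_option linter.style.haveILetI false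
set_option synthInstance.maxHeartbeats 400000
set_option maxHeartbeats 1000000

open HahnSeries ModularCurve Fermat.Agent.T1 Fermat.Agent.T2 Fermat.Agent.T4 Fermat.Agent.TW
  Fermat.Agent.S05Lib Fermat.Agent.S24Lib AlgebraicCurve Fermat.Agent.Curve
  Fermat.Agent.S33 Fermat.Agent.S33Q Fermat.Agent.Delta Fermat.Agent.Alpha Fermat.Agent.T3
  Fermat.Agent.Ihara

noncomputable section

namespace Fermat.Agent.MLT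

local notation "Qb" => AlgebraicClosure ℚ
local notation "GQ" => (AlgebraicClosure ℚ ≃ₐ[ℚ] AlgebraicClosure ℚ)

attribute [local instance] t2i_dvr t2i_isAlgClosed t2i_charP t2i_fact
attribute [local instance 10000] dliAlgF dliAlgE
attribute [local instance] s33g_neZero

section Eis

variable (𝔓 : FFPlace) (H : Subgroup 𝔓.I) [H.FiniteIndex] {ϖ : ↥(tbFixO 𝔓 H)}
  (hϖ : Irreducible ϖ) (N' : ℕ) [NeZero N'] (h : ¬ 𝔓.p ∣ N') (h49 : 4 ∣ N' ∨ 9 ∣ N') {n : ℕ}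
  (su : T2Setup (t2iBase2Fix 𝔓 H N' h) (Fin n))
  (hx : su.x = t2gaX 𝔓 H N' h (𝔓.p ^ 2)) (hxb : su.xb = (s33qXi 𝔓 N', s33qXi 𝔓 N'))

/-- **the conservation law at a node, modulo `m`**, for any vertical datum `T` -/
theorem mltl1_node (T : DlqfVert (dlxChart1 𝔓 H hϖ N' h h49 su hx hxb)) (m : ℕ)
    {s : Place (IsLocalRing.ResidueField ↥𝔓.P) ↥(tbBarF 𝔓 N') ×
      Place (IsLocalRing.ResidueField ↥𝔓.P) ↥(tbBarF 𝔓 N')}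
    (hs : s ∈ (dlxChart1 𝔓 H hϖ N' h h49 su hx hxb).G.nodes)
    (zx : ↥(tbLevF 𝔓 (N' * 𝔓.p) H)) (hzx0 : zx ≠ 0)
    (hhor : ∀ (x : ↥(tbLevF 𝔓 (N' * 𝔓.p) H)) (V : ValuationSubring ↥(tbLevF 𝔓 (N' * 𝔓.p) H))
      (hV : V ∈ t4vpHor ↥(tbFix 𝔓 H) x) [IsDiscreteValuationRing ↥V], (m : ℤ) ∣ dlOrd V zx)
    (Y f : (↥(modularFunctionFieldBar (N' * 𝔓.p)))ˣ)
    (hY : (Y : ↥(modularFunctionFieldBar (N' * 𝔓.p))) = tbPhiF 𝔓 (N' * 𝔓.p) H zx)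
    (hf : (f : ↥(modularFunctionFieldBar (N' * 𝔓.p))) = tbPhiF 𝔓 (N' * 𝔓.p) H T.D) :
    (m : ℤ) ∣ ihbOrd 𝔓 N' h Y s.1 * (T.cross hs).oW' T.D -
      ihbOrd 𝔓 N' h f s.1 * ((T.cross hs).oW' zx - (T.cross hs).oW zx) := by
  have h1 : ihbOrd 𝔓 N' h Y s.1 = (T.cross hs).slope zx :=
    ihbd_cross 𝔓 H hϖ N' h (dlxChart1 𝔓 H hϖ N' h h49 su hx hxb) hs (T.hfin _ _) T.hens T.D
      T.hD0 T.hDhor T.hD1 T.hD2 zx hzx0 Y hY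
  have h2 : ihbOrd 𝔓 N' h f s.1 = (T.cross hs).slope T.D :=
    ihbd_cross 𝔓 H hϖ N' h (dlxChart1 𝔓 H hϖ N' h h49 su hx hxb) hs (T.hfin _ _) T.hens T.D
      T.hD0 T.hDhor T.hD1 T.hD2 T.D T.hD0 f hf
  have h3 := dlc_cll_free (T.cross hs) (m : ℤ) hzx0 (fun V hV => by
    haveI := (T.cross hs).P.dvr V hV.1
    exact @hhor _ V (ihbe_cross_hor 𝔓 H hϖ N' h h49 su hx hxb hs hV) _)
  rw [h1, h2]
  exact h3

/-- the orders of the vertical function vanish at the non-cuspidal free places -/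
theorem mltl1_vert_free1 (T : DlqfVert (dlxChart1 𝔓 H hϖ N' h h49 su hx hxb))
    (P : Place (IsLocalRing.ResidueField ↥𝔓.P) ↥(tbBarF 𝔓 N'))
    (hP : DlsFin 𝔓 N' P)
    (hfree : ∀ Q, (P, Q) ∉ (dlxChart1 𝔓 H hϖ N' h h49 su hx hxb).G.nodes)
    (fV : (↥(modularFunctionFieldBar (N' * 𝔓.p)))ˣ)
    (hfV : (fV : ↥(modularFunctionFieldBar (N' * 𝔓.p))) = tbPhiF 𝔓 (N' * 𝔓.p) H T.D) :
    ihbOrd 𝔓 N' h fV P = 0 := by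
  rw [ihbd_smooth 𝔓 H hϖ N' h (dlxChart1 𝔓 H hϖ N' h h49 su hx hxb) P
    (dlqd_hP1 𝔓 H hϖ N' h h49 su hx hxb P hP) hfree
    (dlxChart1_finAt 𝔓 H hϖ N' h h49 su hx hxb P _) (dlx_hensH 𝔓 H hϖ N')
    T.D T.hD0 fV hfV,
    dlqd_D_free 𝔓 H hϖ N' h (dlxChart1 𝔓 H hϖ N' h h49 su hx hxb) P _ hfree _ _
      T.D T.hD0 T.hDhor]

variable (h2 : 2 ∣ N') (hq3 : 𝔓.p % 3 ≠ 0)

include hϖ h49 su hx hxb in
/-- **the Eisenstein shape modulo `m`** with `δ = 4 e` -/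
theorem mltl1_eis4 (m : ℕ) {η : ↥(tbFixO 𝔓 H)} (hη : IsUnit η) {e : ℕ}
    (hpe : (𝔓.p : ↥(tbFix 𝔓 H)) = (η : ↥(tbFix 𝔓 H)) * (ϖ : ↥(tbFix 𝔓 H)) ^ e)
    (zx : ↥(tbLevF 𝔓 (N' * 𝔓.p) H)) (hzx0 : zx ≠ 0)
    (hdiv : ∀ v : Place Qb ↥(modularFunctionFieldBar (N' * 𝔓.p)),
      (m : ℤ) ∣ v.ord (tbPhiF 𝔓 (N' * 𝔓.p) H zx))
    (Y f : (↥(modularFunctionFieldBar (N' * 𝔓.p)))ˣ)
    (hY : (Y : ↥(modularFunctionFieldBar (N' * 𝔓.p))) = tbPhiF 𝔓 (N' * 𝔓.p) H zx)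
    (hf : (f : ↥(modularFunctionFieldBar (N' * 𝔓.p))) =
      tbPhiF 𝔓 (N' * 𝔓.p) H (mltl1VertD3 𝔓 H N' h2 hq3)) :
    ∃ γ : ℤ,
      (∀ s, DlsFin 𝔓 N' s → (m : ℤ) ∣ ihbOrd 𝔓 N' h Y s * (4 * (e : ℤ)) - ihbOrd 𝔓 N' h f s * γ) ∧
      (∀ s, ¬ DlsFin 𝔓 N' s → (m : ℤ) ∣ ihbOrd 𝔓 N' h Y s) := by
  set C := dlxChart1 𝔓 H hϖ N' h h49 su hx hxb with hC
  set T := mltl1Vert3 𝔓 H hϖ N' h h49 su hx hxb h2 hq3 with hT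
  have hhor : ∀ (x : ↥(tbLevF 𝔓 (N' * 𝔓.p) H)) (V : ValuationSubring ↥(tbLevF 𝔓 (N' * 𝔓.p) H))
      (hV : V ∈ t4vpHor ↥(tbFix 𝔓 H) x) [IsDiscreteValuationRing ↥V], (m : ℤ) ∣ dlOrd V zx :=
    fun x V hV _ => dli_hor_dvd 𝔓 H (N' * 𝔓.p) V hV zx hdiv
  refine ⟨(haveI := C.P.dvr _ C.V₂_mem; dlOrd C.V₂ zx) - (haveI := C.P.dvr _ C.V₁_mem; dlOrd C.V₁ zx),
    ?_, ?_⟩
  · intro P hP
    by_cases hn : ∃ Q, (P, Q) ∈ C.G.nodes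
    · obtain ⟨Q, hs⟩ := hn
      have h1 := mltl1_node 𝔓 H hϖ N' h h49 su hx hxb T m hs zx hzx0 hhor Y f hY hf
      have hδ : (T.cross hs).oW' T.D = 4 * (e : ℤ) :=
        @mltl1VertD3_ord_zero_of_unif 𝔓 H _ N' _ h h2 hq3 (C.P.dvr _ C.V₂_mem) ϖ hϖ η hη e hpe
      rw [hδ] at h1
      exact h1
    · push Not at hn
      have h1 := ihbd_free1 𝔓 H hϖ N' h h49 su hx hxb P hP hn zx hzx0 Y hY m hhor
      have h2' := mltl1_vert_free1 𝔓 H hϖ N' h h49 su hx hxb T P hP hn f hf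
      rw [h2', zero_mul, sub_zero]
      exact Dvd.dvd.mul_right h1 _
  · intro P hP
    exact ihbd_cusp 𝔓 H hϖ N' h h49 su hx hxb P hP zx hzx0 Y hY m hhor

end Eis

section Main

variable (𝔓 : FFPlace) (K : ℕ) [NeZero K] (hK : ¬ 𝔓.p ∣ K)

/-- **(B1)+(B2)** for every odd `p ≠ q`, at the places over `q ≠ 3` -/
theorem mltl1_redDiv4 (h4 : 4 ∣ K) (p : ℕ) (hp : p.Prime) (hp2 : p ≠ 2) (hpq : p ≠ 𝔓.p)
    (hq3' : 𝔓.p ≠ 3) : IhbRedDiv 𝔓 K hK p hp.ne_zero := by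
  intro Y hY hI heig s
  have hp0 : p ≠ 0 := hp.ne_zero
  have h2K : 2 ∣ K := Dvd.dvd.trans (by norm_num) h4
  have hq3 : 𝔓.p % 3 ≠ 0 := by
    intro h0
    have h1 : 3 ∣ 𝔓.p := Nat.dvd_of_mod_eq_zero h0
    exact hq3' ((Nat.prime_dvd_prime_iff_eq Nat.prime_three 𝔓.hp).mp h1).symm
  obtain ⟨ℓ₀, hℓ₀, t, hℓ₀N, hℓ₀p, hT, hne⟩ := heig
  -- (1) descent to the inertia field
  have hI' : ∀ σ ∈ 𝔓.I, ∃ u : (↥(modularFunctionFieldBar (K * 𝔓.p)))ˣ,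
      tkrSig (K * 𝔓.p) σ Y = Y * u ^ p := by
    intro σ hσ
    have h1 := hI σ hσ
    rw [ihb_class_sig (K * 𝔓.p) hp0 σ Y hY] at h1
    exact ihb_pow_of_class_eq (K * 𝔓.p) hp0 Y _ hY _ h1.symm
  obtain ⟨s₁, zx, hzx⟩ := t4d_descend 𝔓 (K * 𝔓.p) hp0 Y hI'
  obtain ⟨hY₁, hcls⟩ := ihb_class_mul_pow hp0 Y s₁ hY
  set Y₁ : (↥(modularFunctionFieldBar (K * 𝔓.p)))ˣ := Y * s₁ ^ p with hY₁def
  have hzx0 : zx ≠ 0 := by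
    rintro rfl
    rw [map_zero] at hzx
    exact Y₁.ne_zero hzx.symm
  have hdiv : ∀ v : Place Qb ↥(modularFunctionFieldBar (K * 𝔓.p)),
      (p : ℤ) ∣ v.ord (tbPhiF 𝔓 (K * 𝔓.p) ⊤ zx) := by
    intro v
    rw [hzx]
    exact hY₁ v
  -- (2) the Eisenstein shape
  obtain ⟨n, su, hx, hxb⟩ := s33q_exists_setup_level 𝔓 K hK (Or.inl h4) (⊤ : Subgroup 𝔓.I)
  have hpe : (𝔓.p : ↥(tbFix 𝔓 (⊤ : Subgroup 𝔓.I))) =
      (((1 : ↥(tbFixO 𝔓 (⊤ : Subgroup 𝔓.I))) : ↥(tbFixO 𝔓 (⊤ : Subgroup 𝔓.I))) :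
          ↥(tbFix 𝔓 (⊤ : Subgroup 𝔓.I))) *
        ((((𝔓.p : ℕ) : ↥(tbFixO 𝔓 (⊤ : Subgroup 𝔓.I))) : ↥(tbFixO 𝔓 (⊤ : Subgroup 𝔓.I))) :
          ↥(tbFix 𝔓 (⊤ : Subgroup 𝔓.I))) ^ 1 := by
    simp
  -- the three vertical functions over `ℚ̄`
  have hG0 : tbPhiF 𝔓 (K * 𝔓.p) ⊤ (mltl1VertD3 𝔓 ⊤ K h2K hq3) ≠ 0 :=
    (map_ne_zero _).mpr (mltl1VertD3_ne_zero 𝔓 ⊤ K h2K hq3)
  have hU0 : tbPhiF 𝔓 (K * 𝔓.p) ⊤ (mltl1VertU3 𝔓 ⊤ K h2K) ≠ 0 :=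
    (map_ne_zero _).mpr (mltl1VertU3_ne_zero 𝔓 ⊤ K h2K)
  obtain ⟨f, hf⟩ : ∃ f : (↥(modularFunctionFieldBar (K * 𝔓.p)))ˣ,
      (f : ↥(modularFunctionFieldBar (K * 𝔓.p))) =
        tbPhiF 𝔓 (K * 𝔓.p) ⊤ (mltl1VertD3 𝔓 ⊤ K h2K hq3) := ⟨Units.mk0 _ hG0, rfl⟩
  obtain ⟨fU, hfU⟩ : ∃ fU : (↥(modularFunctionFieldBar (K * 𝔓.p)))ˣ,
      (fU : ↥(modularFunctionFieldBar (K * 𝔓.p))) =
        tbPhiF 𝔓 (K * 𝔓.p) ⊤ (mltl1VertU3 𝔓 ⊤ K h2K) := ⟨Units.mk0 _ hU0, rfl⟩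
  set fD : (↥(modularFunctionFieldBar (K * 𝔓.p)))ˣ :=
    dleVertU (K * 𝔓.p) 𝔓.p (Dvd.intro_left K rfl) with hfDdef
  have hfD : (fD : ↥(modularFunctionFieldBar (K * 𝔓.p))) =
      tbPhiF 𝔓 (K * 𝔓.p) ⊤ (dlxVertD 𝔓 ⊤ K) :=
    Subtype.ext ((coe_dleVertU (K * 𝔓.p) 𝔓.p (Dvd.intro_left K rfl)).trans
      (dlxVertD_phi 𝔓 ⊤ K).symm)
  have hcube : f ^ 3 * fU = fD := by
    apply Units.ext
    rw [Units.val_mul, Units.val_pow_eq_pow_val, hf, hfU, hfD, ← map_pow, ← map_mul,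
      mltl1VertD3_cube]
  obtain ⟨γ, hfin, hcusp⟩ := mltl1_eis4 𝔓 ⊤ (t4cy_irreducible_p 𝔓) K hK (Or.inl h4) su hx hxb
    h2K hq3 p isUnit_one hpe zx hzx0 hdiv Y₁ f hzx.symm hf
  -- (3) the Hecke relation for `Y₁`
  obtain ⟨t', ht'mod, hT'⟩ : ∃ t' : ℕ, ((t' : ℕ) : ℤ) = t % (p : ℤ) ∧
      heckeOperatorBar (K * 𝔓.p) ⟨ℓ₀, hℓ₀⟩ (alpfClass hp0 Y₁ hY₁) = t' • alpfClass hp0 Y₁ hY₁ := by
    refine ⟨(t % (p : ℤ)).toNat, Int.toNat_of_nonneg (Int.emod_nonneg _ (by exact_mod_cast hp0)), ?_⟩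
    rw [hcls, hT]
    exact dle_zsmul_eq_nsmul hp0 t _ (alpt_class_torsion hp0 Y hY)
  obtain ⟨u, hu⟩ := dle_hecke_rel (K * 𝔓.p) hℓ₀ hℓ₀N hp0 Y₁ hY₁ t' hT'
  have hTD : tkrHeckeUnits (K * 𝔓.p) ℓ₀ fD = fD ^ (ℓ₀ + 1) := by
    apply Units.ext
    rw [tkrHeckeUnits_coe, Units.val_pow_eq_pow_val]
    exact dle_vert_hecke_eq (K * 𝔓.p) 𝔓.p (Dvd.intro_left K rfl) _
      (coe_dleVertU (K * 𝔓.p) 𝔓.p (Dvd.intro_left K rfl)) hℓ₀ hℓ₀N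
  have hTU : tkrHeckeUnits (K * 𝔓.p) ℓ₀ fU = fU ^ (ℓ₀ + 1) := by
    by_cases h1 : 𝔓.p % 3 = 1
    · have hone : fU = 1 := by
        apply Units.ext
        rw [hfU, Units.val_one]
        have : mltl1VertU3 𝔓 ⊤ K h2K = 1 := mltl1V3U_eq_one _ K 𝔓.p h2K h1
        rw [this, map_one]
      rw [hone, map_one, one_pow]
    · apply Units.ext
      rw [tkrHeckeUnits_coe, Units.val_pow_eq_pow_val]
      refine dle_vert_hecke_eq (K * 𝔓.p) 2 (h2K.mul_right 𝔓.p) _ ?_ hℓ₀ hℓ₀N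
      rw [hfU, mltl1VertU3_phi]
      unfold mltl1V3ULS
      rw [if_neg h1]
  -- the orders of `T f`
  have hTf : ∀ s, ihbOrd 𝔓 K hK (tkrHeckeUnits (K * 𝔓.p) ℓ₀ f) s =
      ((ℓ₀ + 1 : ℕ) : ℤ) * ihbOrd 𝔓 K hK f s := by
    intro s
    have e1 := congrArg (tkrHeckeUnits (K * 𝔓.p) ℓ₀) hcube
    rw [map_mul, map_pow, hTU, hTD, ← hcube] at e1
    have e2 := congrArg (fun z => ihbOrd 𝔓 K hK z s) e1
    simp only [ihbOrd_mul, ihbOrd_pow] at e2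
    push_cast at e2 ⊢
    linarith
  -- (4) the auxiliary function `y = Y₁ ^ 4 f ^ (-γ)`
  set y : (↥(modularFunctionFieldBar (K * 𝔓.p)))ˣ := Y₁ ^ 4 * f ^ (-γ) with hy
  have hys : ∀ s, DlsFin 𝔓 K s → (p : ℤ) ∣ ihbOrd 𝔓 K hK y s := by
    intro s hs
    have h1 := hfin s hs
    rw [hy, ihbOrd_mul, ihbOrd_pow, ihbOrd_zpow]
    have e : ((4 : ℕ) : ℤ) * ihbOrd 𝔓 K hK Y₁ s + -γ * ihbOrd 𝔓 K hK f s =
        ihbOrd 𝔓 K hK Y₁ s * (4 * ((1 : ℕ) : ℤ)) - ihbOrd 𝔓 K hK f s * γ := by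
      push_cast; ring
    rw [e]
    exact h1
  have hTy : tkrHeckeUnits (K * 𝔓.p) ℓ₀ y =
      (Y₁ ^ t' * u ^ p) ^ 4 * (tkrHeckeUnits (K * 𝔓.p) ℓ₀ f) ^ (-γ) := by
    rw [hy, map_mul, map_pow, map_zpow, hu]
  have hE := fun s hs => ihb_heckeOrd 𝔓 K hK (Or.inl h4) p ℓ₀ hℓ₀ hℓ₀N y hys
    (tkrHeckeUnits (K * 𝔓.p) ℓ₀ y) (tkrHeckeUnits_coe _) s hs
  -- (5) conclusion for `Y₁`
  have hpprime : Prime (p : ℤ) := Nat.prime_iff_prime_int.mp hp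
  have hmain : ∀ s, (p : ℤ) ∣ ihbOrd 𝔓 K hK Y₁ s := by
    intro s
    by_cases hs : DlsFin 𝔓 K s
    · have h1 := hfin s hs
      have h2 := hE s hs
      rw [hTy, ihbOrd_mul, ihbOrd_pow, ihbOrd_zpow, ihbOrd_mul, ihbOrd_pow, ihbOrd_pow,
        hTf s] at h2
      set oY := ihbOrd 𝔓 K hK Y₁ s with hoY
      set oF := ihbOrd 𝔓 K hK f s with hoF
      set oU := ihbOrd 𝔓 K hK u s with hoU
      -- `p ∣ (t' - ℓ₀ - 1) γ oF`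
      have h3 : (p : ℤ) ∣ ((t' : ℤ) - (ℓ₀ : ℤ) - 1) * (γ * oF) := by
        have e : ((t' : ℤ) - (ℓ₀ : ℤ) - 1) * (γ * oF) =
            (((4 : ℕ) : ℤ) * ((t' : ℤ) * oY + (p : ℤ) * oU) +
              -γ * (((ℓ₀ + 1 : ℕ) : ℤ) * oF)) -
            (t' : ℤ) * (oY * (4 * ((1 : ℕ) : ℤ)) - oF * γ) - (p : ℤ) * (4 * oU) := by
          push_cast; ring
        rw [e]
        exact dvd_sub (dvd_sub h2 (Dvd.dvd.mul_left h1 _)) (dvd_mul_right _ _)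
      have h4' : ¬ (p : ℤ) ∣ ((t' : ℤ) - (ℓ₀ : ℤ) - 1) := by
        intro hd
        apply hne
        have e : (ℓ₀ : ℤ) + 1 - t = -((t' : ℤ) - (ℓ₀ : ℤ) - 1) - (p : ℤ) * (t / (p : ℤ)) := by
          rw [ht'mod]
          have := Int.emod_add_mul_ediv t (p : ℤ)
          linarith
        rw [e]
        exact dvd_sub (Dvd.dvd.neg_right hd) (dvd_mul_right _ _)
      have h5 : (p : ℤ) ∣ γ * oF := (hpprime.dvd_or_dvd h3).resolve_left h4'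
      have h6 : (p : ℤ) ∣ oY * 4 := by
        have e : oY * 4 = (oY * (4 * ((1 : ℕ) : ℤ)) - oF * γ) + γ * oF := by push_cast; ring
        rw [e]
        exact dvd_add h1 h5
      have h7 : ¬ (p : ℤ) ∣ 4 := by
        intro hd
        have h8 : p ∣ 2 * 2 := by exact_mod_cast hd
        rcases (Nat.Prime.dvd_mul hp).mp h8 with h9 | h9 <;>
          exact hp2 ((Nat.prime_dvd_prime_iff_eq hp Nat.prime_two).mp h9)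
      exact (hpprime.dvd_or_dvd h6).resolve_right h7
    · exact hcusp s hs
  -- (6) back to `Y`
  have h1 := hmain s
  rw [hY₁def, ihbOrd_mul, ihbOrd_pow] at h1
  have h2 : ihbOrd 𝔓 K hK Y s =
      (ihbOrd 𝔓 K hK Y s + (p : ℤ) * ihbOrd 𝔓 K hK s₁ s) - (p : ℤ) * ihbOrd 𝔓 K hK s₁ s := by ring
  show (p : ℤ) ∣ ihbOrd 𝔓 K hK Y s
  rw [h2]
  exact dvd_sub h1 (dvd_mul_right _ _)

end Main

/-- **(B1)+(B2) for `p = 3`** at all rigid levels `4 ∣ K` -/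
theorem mltl1_redDivFam_three : MltL1RedDivFam 3 (by norm_num) :=
  fun 𝔓 K _ hK h4 hpq =>
    mltl1_redDiv4 𝔓 K hK h4 3 Nat.prime_three (by norm_num) hpq (fun h => hpq h.symm)

end Fermat.Agent.MLT
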